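import Fermat.Agent.S27.E.Topology
import Fermat.Agent.S27.RiemannI
import Fermat.Agent.S27.FibBasic

/-!
# S27 / E2: connectedness of the set of places (maximum principle)

Owner: helper147.

A function on the set of places which is constant along every chart is constant.
-/

set_option autoImplicit false
set_option linter.unusedSectionVars false

noncomputable section

namespace Fermat.Agent.S27.E

open AlgebraicCurve Fermat.Agent.S24.FF Filter Topology

variable {F : Type*} [Field F] [Algebra ℂ F]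

attribute [local instance] weakTopology

/-- (C3) the closed half ball of the chart contains a weak neighbourhood of its centre -/
def IsNhdChart (χ : Chart F) : Prop :=
  ∃ (y : F) (ε : ℝ), 0 < ε ∧ 0 ≤ (χ.pl χ.c).ord y ∧
    ∀ v : Place ℂ F, 0 ≤ v.ord χ.t → 0 ≤ v.ord y → ‖ev v χ.t - χ.c‖ < ε →
      ‖ev v y - ev (χ.pl χ.c) y‖ < ε → ∃ τ ∈ Metric.closedBall χ.c (χ.r / 2), v = χ.pl τ

section
variable [IsFF1 ℂ F]

theorem chart_c_mem_dom (χ : Chart F) : χ.c ∈ χ.dom := Metric.mem_ball_self χ.r_pos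

theorem chart_closedBall_subset_dom (χ : Chart F) :
    Metric.closedBall χ.c (χ.r / 2) ⊆ χ.dom :=
  Metric.closedBall_subset_ball (by have := χ.r_pos; linarith)

theorem chart_ord_t_nonneg (χ : Chart F) {τ : ℂ} (hτ : τ ∈ χ.dom) : 0 ≤ (χ.pl τ).ord χ.t := by
  have h1 : 0 ≤ (χ.pl τ).ord (χ.t - algebraMap ℂ F τ) := by rw [χ.ord_t τ hτ]; exact zero_le_one
  have h2 := ord_add_nonneg h1 (g := algebraMap ℂ F τ) (by rw [ord_algebraMap])
  rwa [sub_add_cancel] at h2

theorem chart_ev_t (χ : Chart F) {τ : ℂ} (hτ : τ ∈ χ.dom) : ev (χ.pl τ) χ.t = τ :=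
  ev_eq_of_ord_sub_pos (by rw [χ.ord_t τ hτ]; exact zero_lt_one)

theorem chart_injOn_pl (χ : Chart F) : Set.InjOn χ.pl χ.dom := by
  intro τ hτ τ' hτ' h
  rw [← chart_ev_t χ hτ, ← chart_ev_t χ hτ', h]

theorem IsNhdChart.mem_nhds {χ : Chart F} (h : IsNhdChart χ) :
    χ.pl '' Metric.closedBall χ.c (χ.r / 2) ∈ 𝓝 (χ.pl χ.c) := by
  obtain ⟨y, ε, hε, hy, H⟩ := h
  have ho : IsOpen (basicSet χ.t (Metric.ball χ.c ε) ∩
      basicSet y (Metric.ball (ev (χ.pl χ.c) y) ε)) :=
    (isOpen_basicSet _ Metric.isOpen_ball).inter (isOpen_basicSet _ Metric.isOpen_ball)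
  refine Filter.mem_of_superset (ho.mem_nhds ⟨⟨chart_ord_t_nonneg χ (chart_c_mem_dom χ), ?_⟩, ⟨hy, ?_⟩⟩) ?_
  · rw [chart_ev_t χ (chart_c_mem_dom χ)]; exact Metric.mem_ball_self hε
  · exact Metric.mem_ball_self hε
  · rintro v ⟨⟨h1, h2⟩, ⟨h3, h4⟩⟩
    obtain ⟨τ, hτ, rfl⟩ := H v h1 h3 (by simpa [dist_eq_norm] using h2)
      (by simpa [dist_eq_norm] using h4)
    exact ⟨τ, hτ, rfl⟩

end

section
variable [IsFF1 ℂ F] [NonConst ℂ F]

/-- There is a nonconstant function whose only pole is `p`. -/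
theorem exists_nonconst_regular_off (p : Place ℂ F) :
    ∃ f : F, (∀ c : ℂ, f ≠ algebraMap ℂ F c) ∧ ∀ v : Place ℂ F, v ≠ p → 0 ≤ v.ord f := by
  classical
  set g := genusFF ℂ F with hg
  set D : Divisor ℂ F := Finsupp.single p ((g : ℤ) + 1) with hD
  have hdeg : Divisor.degree D = (g : ℤ) + 1 := by
    rw [hD, Divisor.degree_single, deg_eq_one]; simp
  have hRR := finrank_riemannRochSpace_sub_finrank_H1 D
  rw [hdeg] at hRR
  have h2 : 2 ≤ Module.finrank ℂ (riemannRochSpace D) := by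
    have : (0 : ℤ) ≤ Module.finrank ℂ (H1 D) := Int.natCast_nonneg _
    omega
  have := finite_riemannRochSpace D
  by_contra hcon
  push Not at hcon
  -- every element of `L(D)` is constant
  have hconst : ∀ f ∈ riemannRochSpace D, ∃ c : ℂ, f = algebraMap ℂ F c := by
    intro f hf
    by_contra hnc
    push Not at hnc
    obtain ⟨v, hv, hlt⟩ := hcon f hnc
    rcases (mem_riemannRochSpace_iff.mp hf) v with h | h
    · rw [h] at hlt; simp at hlt
    · rw [hD, Finsupp.single_apply, if_neg (Ne.symm hv)] at h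
      omega
  have hle : Module.finrank ℂ (riemannRochSpace D) ≤ 1 := by
    have hsub : riemannRochSpace D ≤ Submodule.span ℂ {(1 : F)} := by
      intro f hf
      obtain ⟨c, rfl⟩ := hconst f hf
      rw [Submodule.mem_span_singleton]
      exact ⟨c, by rw [Algebra.smul_def, mul_one]⟩
    calc Module.finrank ℂ (riemannRochSpace D)
        ≤ Module.finrank ℂ (Submodule.span ℂ {(1 : F)}) := Submodule.finrank_mono hsub
      _ ≤ 1 := finrank_span_singleton (one_ne_zero) |>.le
  omega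

/-- **Connectedness.**  A function on the places which is constant along a family of charts whose
half balls are weak neighbourhoods of every place is constant. -/
theorem eq_of_const_on_charts {Q : Type*} (κ : Place ℂ F → Q)
    (hcov : ∀ p : Place ℂ F, ∃ χ : Chart F, χ.pl χ.c = p ∧ IsNhdChart χ ∧
      ∀ τ ∈ χ.dom, κ (χ.pl τ) = κ p) (p q : Place ℂ F) : κ q = κ p := by
  have : CompactSpace (Place ℂ F) := compactSpace_place
  have hlc : IsLocallyConstant κ := by
    rw [IsLocallyConstant.iff_eventually_eq]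
    intro v
    obtain ⟨χ, hχ, hn, hc⟩ := hcov v
    have := hn.mem_nhds
    rw [hχ] at this
    filter_upwards [this] with w hw
    obtain ⟨τ, hτ, rfl⟩ := hw
    exact hc τ (chart_closedBall_subset_dom χ hτ)
  by_contra hne
  set X2 : Set (Place ℂ F) := κ ⁻¹' {κ p}ᶜ with hX2
  have hclosed : IsClosed X2 := by
    have : IsOpen (κ ⁻¹' {κ p}) := hlc _
    rw [hX2, Set.preimage_compl]
    exact this.isClosed_compl
  have hcomp : IsCompact X2 := hclosed.isCompact
  have hq : q ∈ X2 := hne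
  have hp : ∀ v ∈ X2, v ≠ p := by
    rintro v hv rfl
    exact hv rfl
  obtain ⟨f, hfc, hfreg⟩ := exists_nonconst_regular_off p
  have hcont : ContinuousOn (fun v : Place ℂ F => ‖ev v f‖) X2 := by
    intro v hv
    exact (continuousAt_ev (hfreg v (hp v hv))).norm.continuousWithinAt
  obtain ⟨w, hw, hmax⟩ := hcomp.exists_isMaxOn ⟨q, hq⟩ hcont
  obtain ⟨χ, hχ, -, hc⟩ := hcov w
  have hin : ∀ τ ∈ χ.dom, χ.pl τ ∈ X2 := by
    intro τ hτ
    show κ (χ.pl τ) ∈ ({κ p}ᶜ : Set Q)
    rw [hc τ hτ]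
    exact hw
  set φ : ℂ → ℂ := fun σ => ev (χ.pl σ) f with hφ
  have hd : DifferentiableOn ℂ φ χ.dom := by
    intro τ hτ
    exact (χ.analytic_ev f τ hτ (hfreg _ (hp _ (hin τ hτ)))).differentiableAt.differentiableWithinAt
  have hm : IsMaxOn (norm ∘ φ) χ.dom χ.c := by
    intro τ hτ
    have := hmax (hin τ hτ)
    simp only [Set.mem_ofPred_eq, Function.comp, hφ, hχ] at this ⊢
    exact this
  have heq := Complex.eqOn_of_isPreconnected_of_isMaxOn_norm
    (convex_ball χ.c χ.r).isPreconnected Metric.isOpen_ball hd (chart_c_mem_dom χ) hm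
  -- `f - f(w)` has infinitely many zeros
  have hne0 : f - algebraMap ℂ F (ev w f) ≠ 0 := sub_ne_zero.mpr (hfc _)
  apply hne0
  apply eq_zero_of_infinite_zeros (K := ℂ)
  have hinf : (χ.pl '' χ.dom).Infinite :=
    (infinite_of_mem_nhds χ.c (Metric.ball_mem_nhds χ.c χ.r_pos)).image (chart_injOn_pl χ)
  refine hinf.mono ?_
  rintro v ⟨τ, hτ, rfl⟩
  have h1 : ev (χ.pl τ) f = ev w f := by
    have := heq hτ
    simpa [hφ, hχ] using this
  have hreg := hfreg _ (hp _ (hin τ hτ))
  have h2 : ev (χ.pl τ) (f - algebraMap ℂ F (ev w f)) = 0 := by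
    rw [ev_sub_const hreg, h1, sub_self]
  rcases (ev_eq_zero_iff (ord_sub_const_nonneg hreg _)).mp h2 with h3 | h3
  · exact absurd h3 hne0
  · exact h3

end

end Fermat.Agent.S27.E
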