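import Fermat.Agent.S27.E.Connected
import Fermat.Agent.S27.Lattice

/-!
# S27 / E3: from a local Abel-Jacobi homomorphism to the torsion count (case `K = ℂ`)

Owner: helper147.

Input: charts around every place (with the weak neighbourhood property), a homomorphism
`E : ℂ^g → Pic0`, injective near `0`, such that along every chart
`[pl τ - pl τ'] = E (A τ - A τ')` with `A` continuous.
Output: `#Pic0[n] = n^(2g)`.
-/

set_option autoImplicit false
set_option linter.unusedSectionVars false

noncomputable section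

namespace Fermat.Agent.S27.E

open AlgebraicCurve Fermat.Agent.S24.FF Filter Topology

variable {F : Type*} [Field F] [Algebra ℂ F]

attribute [local instance] weakTopology

section Cls

variable [IsFF1 ℂ F]

/-- the class map as a homomorphism -/
def clsHom : Divisor.degZero (K := ℂ) (F := F) →+ Pic0 ℂ F := QuotientAddGroup.mk' _

theorem cls_eq_clsHom {D : Divisor ℂ F} (h : D ∈ Divisor.degZero (K := ℂ) (F := F)) :
    cls D = clsHom ⟨D, h⟩ := dif_pos h

theorem cls_add {D D' : Divisor ℂ F} (h : Divisor.degree D = 0) (h' : Divisor.degree D' = 0) :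
    cls (D + D') = cls D + cls D' := by
  have h1 : D ∈ Divisor.degZero (K := ℂ) (F := F) := h
  have h2 : D' ∈ Divisor.degZero (K := ℂ) (F := F) := h'
  rw [cls_eq_clsHom h1, cls_eq_clsHom h2, cls_eq_clsHom (add_mem h1 h2), ← map_add]
  rfl

theorem cls_sub {D D' : Divisor ℂ F} (h : Divisor.degree D = 0) (h' : Divisor.degree D' = 0) :
    cls (D - D') = cls D - cls D' := by
  have h1 : D ∈ Divisor.degZero (K := ℂ) (F := F) := h
  have h2 : D' ∈ Divisor.degZero (K := ℂ) (F := F) := h'
  rw [cls_eq_clsHom h1, cls_eq_clsHom h2, cls_eq_clsHom (sub_mem h1 h2), ← map_sub]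
  rfl

theorem cls_zsmul {D : Divisor ℂ F} (h : Divisor.degree D = 0) (n : ℤ) :
    cls (n • D) = n • cls D := by
  have h1 : D ∈ Divisor.degZero (K := ℂ) (F := F) := h
  rw [cls_eq_clsHom h1, cls_eq_clsHom (zsmul_mem h1 n), ← map_zsmul]
  rfl

theorem cls_eq_zero_of_principal {D : Divisor ℂ F} (h : Divisor.degree D = 0)
    (hp : D ∈ Divisor.principal (K := ℂ) (F := F)) : cls D = 0 := by
  have h1 : D ∈ Divisor.degZero (K := ℂ) (F := F) := h
  rw [cls_eq_clsHom h1]
  exact (QuotientAddGroup.eq_zero_iff _).mpr hp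

theorem degree_pt (v : Place ℂ F) : Divisor.degree (pt v) = 1 := by
  rw [pt, Divisor.degree_single, deg_eq_one]; simp

theorem degree_pt_sub_pt (v w : Place ℂ F) : Divisor.degree (pt v - pt w) = 0 := by
  rw [map_sub, degree_pt, degree_pt, sub_self]

theorem degree_eq_sum (D : Divisor ℂ F) : Divisor.degree D = D.sum fun _ n => n := by
  induction D using Finsupp.induction_linear with
  | zero => simp
  | add f g hf hg =>
    rw [map_add, hf, hg, Finsupp.sum_add_index' (by simp) (by simp)]
  | single v n =>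
    rw [Divisor.degree_single, deg_eq_one, Finsupp.sum_single_index rfl]; simp

/-- the divisor of a function -/
def divOf (f : F) : Divisor ℂ F :=
  Finsupp.ofSupportFinite (fun v => v.ord f) (finite_ord_ne_zero (K := ℂ) f)

theorem divOf_apply (f : F) (v : Place ℂ F) : divOf f v = v.ord f := rfl

theorem degree_divOf (f : F) : Divisor.degree (divOf f) = 0 := by
  rw [degree_eq_sum, Finsupp.sum]
  apply sum_ord_eq_zero f
  intro v hv
  rw [Finsupp.mem_support_iff]
  exact hv

theorem divOf_mem_principal {f : F} (hf : f ≠ 0) :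
    divOf f ∈ Divisor.principal (K := ℂ) (F := F) := ⟨f, hf, fun _ => rfl⟩

end Cls

section Main

variable [IsFF1 ℂ F] [NonConst ℂ F]

/-- an effective divisor is a bounded combination of points -/
theorem exists_bounded_of_effective {g : ℕ} (E : (Fin g → ℂ) →+ Pic0 ℂ F) (P0 : Place ℂ F) (R : ℝ)
    (hR : ∀ v : Place ℂ F, ∃ u : Fin g → ℂ, ‖u‖ ≤ R ∧ E u = cls (pt v - pt P0))
    (D : Divisor ℂ F) (hD : ∀ v, 0 ≤ D v) :
    ∃ u : Fin g → ℂ, ‖u‖ ≤ (Divisor.degree D : ℝ) * R ∧
      E u = cls (D - Divisor.degree D • pt P0) := by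
  classical
  induction D using Finsupp.induction with
  | zero => exact ⟨0, by simp, by simp [cls_eq_zero_of_principal (F := F) (D := 0) (by simp)
      (zero_mem _)]⟩
  | single_add a b f ha hb ih =>
    have hfa : f a = 0 := Finsupp.notMem_support_iff.mp ha
    have hb0 : 0 ≤ b := by
      have := hD a
      simpa [hfa] using this
    have hf : ∀ v, 0 ≤ f v := by
      intro v
      by_cases hva : v = a
      · rw [hva, hfa]
      · have := hD v
        simpa [Finsupp.single_apply, Ne.symm hva] using this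
    obtain ⟨u, hu, hEu⟩ := ih hf
    obtain ⟨ua, hua, hEua⟩ := hR a
    refine ⟨b • ua + u, ?_, ?_⟩
    · have h1 : ‖b • ua‖ ≤ (b : ℝ) * R := by
        calc ‖b • ua‖ ≤ ‖b‖ * ‖ua‖ := norm_zsmul_le b ua
          _ = (b : ℝ) * ‖ua‖ := by rw [Int.norm_eq_abs, abs_of_nonneg (by exact_mod_cast hb0)]
          _ ≤ (b : ℝ) * R := mul_le_mul_of_nonneg_left hua (by exact_mod_cast hb0)
      have h2 : (Divisor.degree (Finsupp.single a b + f) : ℝ)
          = (b : ℝ) + (Divisor.degree f : ℝ) := by
        rw [map_add, Divisor.degree_single, deg_eq_one]; push_cast; ring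
      rw [h2, add_mul]
      exact (norm_add_le _ _).trans (add_le_add h1 hu)
    · have h3 : Finsupp.single a b + f - Divisor.degree (Finsupp.single a b + f) • pt P0
          = b • (pt a - pt P0) + (f - Divisor.degree f • pt P0) := by
        have h4 : Divisor.degree (Finsupp.single a b + f) = b + Divisor.degree f := by
          rw [map_add, Divisor.degree_single, deg_eq_one]; simp
        have h5 : (Finsupp.single a b : Divisor ℂ F) = b • pt a := by
          rw [pt, Finsupp.smul_single, smul_eq_mul, mul_one]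
        rw [h4, h5, add_smul, smul_sub]
        abel
      have h6 : Divisor.degree (f - Divisor.degree f • pt P0) = 0 := by
        rw [map_sub, map_zsmul, degree_pt]; simp
      rw [h3, cls_add (by rw [map_zsmul, degree_pt_sub_pt, smul_zero]) h6,
        cls_zsmul (degree_pt_sub_pt a P0), map_add, map_zsmul, hEua, hEu]

/-- every class of degree zero is `[D' - g P0]` with `D'` effective of degree `g` -/
theorem exists_effective_repr (P0 : Place ℂ F) (D : Divisor ℂ F) (hD : Divisor.degree D = 0) :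
    ∃ D' : Divisor ℂ F, (∀ v, 0 ≤ D' v) ∧ Divisor.degree D' = genusFF ℂ F ∧
      cls D = cls (D' - Divisor.degree D' • pt P0) := by
  set g := genusFF ℂ F with hg
  set D0 : Divisor ℂ F := D + (g : ℤ) • pt P0 with hD0
  have hdeg : Divisor.degree D0 = g := by
    rw [hD0, map_add, hD, map_zsmul, degree_pt]; simp
  have hRR := finrank_riemannRochSpace_sub_finrank_H1 D0
  rw [hdeg] at hRR
  have h1 : 0 < Module.finrank ℂ (riemannRochSpace D0) := by
    have : (0 : ℤ) ≤ Module.finrank ℂ (H1 D0) := Int.natCast_nonneg _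
    omega
  have := finite_riemannRochSpace D0
  have hnt : Nontrivial (riemannRochSpace D0) := Module.finrank_pos_iff.mp h1
  obtain ⟨⟨f, hf⟩, hf0⟩ := exists_ne (0 : riemannRochSpace D0)
  have hf0' : f ≠ 0 := fun h => hf0 (Subtype.ext h)
  refine ⟨D0 + divOf f, ?_, ?_, ?_⟩
  · intro v
    rcases (mem_riemannRochSpace_iff.mp hf) v with h | h
    · exact absurd h hf0'
    · rw [Finsupp.add_apply, divOf_apply]; omega
  · rw [map_add, hdeg, degree_divOf, add_zero]
  · have h2 : Divisor.degree (D0 + divOf f) = g := by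
      rw [map_add, hdeg, degree_divOf, add_zero]
    have h3 : D0 + divOf f - Divisor.degree (D0 + divOf f) • pt P0 = D + divOf f := by
      rw [h2, hD0]; abel
    rw [h3, cls_add hD (degree_divOf f),
      cls_eq_zero_of_principal (degree_divOf f) (divOf_mem_principal hf0'), add_zero]

/-- **Case `K = ℂ`, global part.** -/
theorem card_torsion_of_abelJacobi
    (hchart : ∀ p : Place ℂ F, ∃ χ : Chart F, χ.pl χ.c = p ∧ IsNhdChart χ)
    (E : (Fin (genusFF ℂ F) → ℂ) →+ Pic0 ℂ F)
    (hinj : ∃ r : ℝ, 0 < r ∧ ∀ u : Fin (genusFF ℂ F) → ℂ, ‖u‖ < r → E u = 0 → u = 0)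
    (hE : ∀ χ : Chart F, ∃ A : ℂ → (Fin (genusFF ℂ F) → ℂ), ContinuousOn A χ.dom ∧
      ∀ τ ∈ χ.dom, ∀ τ' ∈ χ.dom, cls (pt (χ.pl τ) - pt (χ.pl τ')) = E (A τ - A τ'))
    (n : ℕ) (hn : 0 < n) :
    Nat.card (Pic0.torsion ℂ F n) = n ^ (2 * genusFF ℂ F) := by
  classical
  have : CompactSpace (Place ℂ F) := compactSpace_place
  have : Infinite (Place ℂ F) := infinite_place (K := ℂ)
  obtain ⟨P0⟩ : Nonempty (Place ℂ F) := inferInstance
  -- step 1: every `[v - P0]` is in the range of `E`
  have hrange : ∀ v : Place ℂ F, ∃ u, E u = cls (pt v - pt P0) := by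
    intro v
    have key := eq_of_const_on_charts
      (fun w : Place ℂ F => (QuotientAddGroup.mk (cls (pt w - pt P0)) : Pic0 ℂ F ⧸ E.range))
      (fun p => by
        obtain ⟨χ, hχ, hn⟩ := hchart p
        refine ⟨χ, hχ, hn, fun τ hτ => ?_⟩
        obtain ⟨A, -, hA⟩ := hE χ
        have h1 := hA τ hτ χ.c (chart_c_mem_dom χ)
        rw [hχ] at h1
        rw [QuotientAddGroup.eq]
        refine ⟨A χ.c - A τ, ?_⟩
        have h2 : pt (χ.pl τ) - pt p = (pt (χ.pl τ) - pt P0) - (pt p - pt P0) := by abel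
        rw [h2, cls_sub (degree_pt_sub_pt _ _) (degree_pt_sub_pt _ _)] at h1
        have h3 : A χ.c - A τ = -(A τ - A χ.c) := by abel
        rw [h3, map_neg, ← h1]
        abel) P0 v
    have h0 : cls (pt P0 - pt P0 : Divisor ℂ F) = 0 := by
      rw [sub_self]
      exact cls_eq_zero_of_principal (by simp) (zero_mem _)
    simp only [h0] at key
    rw [QuotientAddGroup.mk_zero, QuotientAddGroup.eq_zero_iff] at key
    exact key
  -- step 2: uniform bound
  choose χ hχc hχn using hchart
  choose A hAc hA using fun p => hE (χ p)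
  choose u0 hu0 using hrange
  have hB : ∀ p, ∃ B : ℝ, ∀ τ ∈ Metric.closedBall (χ p).c ((χ p).r / 2), ‖A p τ‖ ≤ B := fun p =>
    (isCompact_closedBall _ _).exists_bound_of_continuousOn
      ((hAc p).mono (chart_closedBall_subset_dom (χ p)))
  choose B hB using hB
  obtain ⟨T, hT⟩ := CompactSpace.elim_nhds_subcover
    (fun p => (χ p).pl '' Metric.closedBall (χ p).c ((χ p).r / 2))
    (fun p => by
      have := (hχn p).mem_nhds
      rwa [hχc p] at this)
  set R : ℝ := ∑ p ∈ T, (B p + ‖A p (χ p).c‖ + ‖u0 p‖) with hRdef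
  have hBnonneg : ∀ p, 0 ≤ B p := fun p =>
    (norm_nonneg _).trans (hB p (χ p).c (Metric.mem_closedBall_self (by
      have := (χ p).r_pos; linarith)))
  have hR : ∀ v : Place ℂ F, ∃ u : Fin (genusFF ℂ F) → ℂ, ‖u‖ ≤ R ∧ E u = cls (pt v - pt P0) := by
    intro v
    have hv : v ∈ ⋃ x ∈ T, (χ x).pl '' Metric.closedBall (χ x).c ((χ x).r / 2) := by
      rw [hT]; trivial
    simp only [Set.mem_iUnion] at hv
    obtain ⟨p, hpT, τ, hτ, rfl⟩ := hv
    refine ⟨A p τ - A p (χ p).c + u0 p, ?_, ?_⟩
    · have h1 : ‖A p τ - A p (χ p).c + u0 p‖ ≤ B p + ‖A p (χ p).c‖ + ‖u0 p‖ :=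
        (norm_add_le _ _).trans (add_le_add ((norm_sub_le _ _).trans
          (add_le_add (hB p τ hτ) le_rfl)) le_rfl)
      refine h1.trans ?_
      exact Finset.single_le_sum (f := fun p => B p + ‖A p (χ p).c‖ + ‖u0 p‖)
        (fun q _ => add_nonneg (add_nonneg (hBnonneg q) (norm_nonneg _)) (norm_nonneg _)) hpT
    · rw [map_add, ← hA p τ (chart_closedBall_subset_dom (χ p) hτ) (χ p).c (chart_c_mem_dom (χ p)),
        hu0, hχc p, ← cls_add (degree_pt_sub_pt _ _) (degree_pt_sub_pt _ _)]
      congr 1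
      abel
  -- step 3: every class
  have hbdd : ∃ R' : ℝ, ∀ y : Pic0 ℂ F, ∃ x : Fin (genusFF ℂ F) → ℂ, ‖x‖ ≤ R' ∧ E x = y := by
    refine ⟨(genusFF ℂ F : ℝ) * R, fun y => ?_⟩
    obtain ⟨⟨D, hD⟩, rfl⟩ := Pic0.mk_surjective y
    obtain ⟨D', hD'0, hD'deg, hcls⟩ := exists_effective_repr P0 D hD
    obtain ⟨u, hu, hEu⟩ := exists_bounded_of_effective E P0 R hR D' hD'0
    refine ⟨u, ?_, ?_⟩
    · rw [hD'deg] at hu
      exact_mod_cast hu
    · rw [hEu, ← hcls]
      exact dif_pos hD
  have hsurj : Function.Surjective E := fun y => by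
    obtain ⟨R', hR'⟩ := hbdd
    obtain ⟨x, -, hx⟩ := hR' y
    exact ⟨x, hx⟩
  exact Lattice.card_torsionBy_complex E hsurj hinj hbdd n hn

end Main

end Fermat.Agent.S27.E
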