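import Fermat.Agent.S27.Ev
import Fermat.Agent.S27.H.ValSubring

/-!
# S27 / E1: the weak topology on the set of places of a function field over `ℂ`; compactness

Owner: helper147.

The weak topology is generated by the sets `{v | f regular at v, f(v) ∈ W}`, `f : F`, `W ⊆ ℂ` open.
It is compact: for an ultrafilter `𝓤` the functions which are bounded along `𝓤` form a valuation
subring of `F`, i.e. a place, and `𝓤` converges to that place.
-/

set_option autoImplicit false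
set_option linter.unusedSectionVars false

noncomputable section

namespace Fermat.Agent.S27.E

open AlgebraicCurve Fermat.Agent.S24.FF Filter Topology

variable {F : Type*} [Field F] [Algebra ℂ F]

/-- the basic open sets of the weak topology -/
def basicSet (f : F) (W : Set ℂ) : Set (Place ℂ F) := {v | 0 ≤ v.ord f ∧ ev v f ∈ W}

variable (F) in
/-- the weak topology on the set of places -/
@[instance_reducible]
def weakTopology : TopologicalSpace (Place ℂ F) :=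
  TopologicalSpace.generateFrom {s | ∃ (f : F) (W : Set ℂ), IsOpen W ∧ s = basicSet f W}

attribute [local instance] weakTopology

theorem isOpen_basicSet (f : F) {W : Set ℂ} (hW : IsOpen W) : IsOpen (basicSet f W) :=
  TopologicalSpace.isOpen_generateFrom_of_mem ⟨f, W, hW, rfl⟩

section
variable [IsFF1 ℂ F]

theorem ord_add_nonneg {v : Place ℂ F} {f g : F} (hf : 0 ≤ v.ord f) (hg : 0 ≤ v.ord g) :
    0 ≤ v.ord (f + g) :=
  ord_nonneg_of_mem v (add_mem (mem_of_ord_nonneg v hf) (mem_of_ord_nonneg v hg))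

theorem ord_mul_nonneg {v : Place ℂ F} {f g : F} (hf : 0 ≤ v.ord f) (hg : 0 ≤ v.ord g) :
    0 ≤ v.ord (f * g) :=
  ord_nonneg_of_mem v (mul_mem (mem_of_ord_nonneg v hf) (mem_of_ord_nonneg v hg))

theorem ord_sub_const_nonneg {v : Place ℂ F} {f : F} (hf : 0 ≤ v.ord f) (c : ℂ) :
    0 ≤ v.ord (f - algebraMap ℂ F c) :=
  ord_nonneg_of_mem v (sub_mem (mem_of_ord_nonneg v hf) (v.algebraMap_mem' c))

theorem ev_sub_const {v : Place ℂ F} {f : F} (hf : 0 ≤ v.ord f) (c : ℂ) :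
    ev v (f - algebraMap ℂ F c) = ev v f - c := by
  rw [ev_sub hf (by rw [ord_algebraMap]), ev_algebraMap]

theorem ev_neg' {v : Place ℂ F} {f : F} (hf : 0 ≤ v.ord f) : ev v (-f) = - ev v f :=
  ev_eq_of_isVal (isVal_ev hf).neg

/-- a regular function with nonzero value has a regular inverse -/
theorem inv_regular {v : Place ℂ F} {h : F} (hh : 0 ≤ v.ord h) (hne : ev v h ≠ 0) :
    0 ≤ v.ord h⁻¹ ∧ ev v h⁻¹ = (ev v h)⁻¹ := by
  have h1 := (ev_eq_zero_iff hh).not.mp hne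
  push Not at h1
  have h0 : v.ord h = 0 := le_antisymm h1.2 hh
  exact ⟨by rw [v.ord_inv, h0, neg_zero], ev_inv h1.1 h0⟩

/-- the map `v ↦ f(v)` is continuous at the places where `f` is regular -/
theorem continuousAt_ev {f : F} {v : Place ℂ F} (hf : 0 ≤ v.ord f) :
    ContinuousAt (fun w : Place ℂ F => ev w f) v := by
  intro W hW
  obtain ⟨W', hW'W, hW'o, hvW'⟩ := mem_nhds_iff.mp hW
  rw [Filter.mem_map]
  refine Filter.mem_of_superset ((isOpen_basicSet f hW'o).mem_nhds ⟨hf, hvW'⟩) ?_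
  intro w hw
  exact hW'W hw.2

/-- the set of places where `f` is regular is open -/
theorem isOpen_regular (f : F) : IsOpen {v : Place ℂ F | 0 ≤ v.ord f} := by
  have : {v : Place ℂ F | 0 ≤ v.ord f} = basicSet f Set.univ := by
    ext v; simp [basicSet]
  rw [this]
  exact isOpen_basicSet f isOpen_univ

end

section Compact

variable [IsFF1 ℂ F] (𝓤 : Ultrafilter (Place ℂ F))

/-- `f` is bounded along the ultrafilter `𝓤` -/
def Bdd (f : F) : Prop := ∃ M : ℝ, ∀ᶠ v in (𝓤 : Filter (Place ℂ F)), 0 ≤ v.ord f ∧ ‖ev v f‖ ≤ M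

variable {𝓤}

theorem Bdd.add {f g : F} (hf : Bdd 𝓤 f) (hg : Bdd 𝓤 g) : Bdd 𝓤 (f + g) := by
  obtain ⟨M, hM⟩ := hf
  obtain ⟨N, hN⟩ := hg
  refine ⟨M + N, ?_⟩
  filter_upwards [hM, hN] with v h1 h2
  refine ⟨ord_add_nonneg h1.1 h2.1, ?_⟩
  rw [ev_add h1.1 h2.1]
  exact (norm_add_le _ _).trans (add_le_add h1.2 h2.2)

theorem Bdd.mul {f g : F} (hf : Bdd 𝓤 f) (hg : Bdd 𝓤 g) : Bdd 𝓤 (f * g) := by
  obtain ⟨M, hM⟩ := hf
  obtain ⟨N, hN⟩ := hg
  refine ⟨M * N, ?_⟩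
  filter_upwards [hM, hN] with v h1 h2
  refine ⟨ord_mul_nonneg h1.1 h2.1, ?_⟩
  rw [ev_mul h1.1 h2.1, norm_mul]
  exact mul_le_mul h1.2 h2.2 (norm_nonneg _) ((norm_nonneg _).trans h1.2)

theorem Bdd.neg {f : F} (hf : Bdd 𝓤 f) : Bdd 𝓤 (-f) := by
  obtain ⟨M, hM⟩ := hf
  refine ⟨M, ?_⟩
  filter_upwards [hM] with v h1
  refine ⟨by rw [ord_neg]; exact h1.1, ?_⟩
  rw [ev_neg' h1.1, norm_neg]
  exact h1.2

theorem bdd_const (c : ℂ) : Bdd 𝓤 (algebraMap ℂ F c) :=
  ⟨‖c‖, Filter.Eventually.of_forall fun v => ⟨by rw [ord_algebraMap], by rw [ev_algebraMap]⟩⟩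

theorem bdd_or_bdd_inv (f : F) : Bdd 𝓤 f ∨ Bdd 𝓤 f⁻¹ := by
  rcases Ultrafilter.em 𝓤 (fun v : Place ℂ F => 0 ≤ v.ord f ∧ ‖ev v f‖ ≤ 1) with h | h
  · exact Or.inl ⟨1, h⟩
  · refine Or.inr ⟨1, ?_⟩
    filter_upwards [h] with v hv
    by_cases h0 : 0 ≤ v.ord f
    · have h1 : 1 < ‖ev v f‖ := by
        by_contra hcon
        exact hv ⟨h0, not_lt.mp hcon⟩
      have hne : ev v f ≠ 0 := by
        intro h2
        rw [h2, norm_zero] at h1
        linarith
      obtain ⟨h3, h4⟩ := inv_regular h0 hne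
      refine ⟨h3, ?_⟩
      rw [h4, norm_inv]
      exact inv_le_one_of_one_le₀ h1.le
    · have h1 : 0 < v.ord f⁻¹ := by rw [v.ord_inv]; omega
      refine ⟨h1.le, ?_⟩
      rw [(ev_eq_zero_iff h1.le).mpr (Or.inr h1), norm_zero]
      exact zero_le_one

/-- a function bounded along `𝓤` has a limit along `𝓤` -/
theorem Bdd.exists_tendsto {f : F} (hf : Bdd 𝓤 f) :
    ∃ c : ℂ, Tendsto (fun v : Place ℂ F => ev v f) 𝓤 (𝓝 c) := by
  obtain ⟨M, hM⟩ := hf
  have h1 : ((𝓤.map fun v : Place ℂ F => ev v f : Ultrafilter ℂ) : Filter ℂ)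
      ≤ 𝓟 (Metric.closedBall (0 : ℂ) M) := by
    rw [le_principal_iff, Ultrafilter.mem_coe, Ultrafilter.mem_map]
    filter_upwards [hM] with v hv
    simpa using hv.2
  obtain ⟨c, -, hc⟩ := (isCompact_closedBall (0 : ℂ) M).ultrafilter_le_nhds _ h1
  exact ⟨c, hc⟩

/-- if `f` tends to `c' ≠ c` along `𝓤` then `1/(f-c)` is bounded along `𝓤` -/
theorem bdd_inv_sub_of_tendsto {f : F} (hf : Bdd 𝓤 f) {c c' : ℂ}
    (hc' : Tendsto (fun v : Place ℂ F => ev v f) 𝓤 (𝓝 c')) (hne : c' ≠ c) :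
    Bdd 𝓤 (f - algebraMap ℂ F c)⁻¹ := by
  obtain ⟨M, hM⟩ := hf
  have hη : 0 < ‖c' - c‖ / 2 := by
    have : 0 < ‖c' - c‖ := norm_pos_iff.mpr (sub_ne_zero.mpr hne)
    linarith
  have h2 : ∀ᶠ v in (𝓤 : Filter (Place ℂ F)), ‖ev v f - c'‖ < ‖c' - c‖ / 2 := by
    have := hc' (Metric.ball_mem_nhds c' hη)
    filter_upwards [this] with v hv
    simpa [dist_eq_norm] using hv
  refine ⟨(‖c' - c‖ / 2)⁻¹, ?_⟩
  filter_upwards [hM, h2] with v h3 h4
  have h5 : ‖c' - c‖ / 2 ≤ ‖ev v f - c‖ := by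
    have h6 : ‖c' - c‖ ≤ ‖ev v f - c‖ + ‖ev v f - c'‖ := by
      have : c' - c = (ev v f - c) - (ev v f - c') := by ring
      rw [this]
      exact norm_sub_le _ _
    linarith
  have h7 : ev v (f - algebraMap ℂ F c) ≠ 0 := by
    rw [ev_sub_const h3.1]
    intro h8
    rw [h8, norm_zero] at h5
    linarith
  obtain ⟨h9, h10⟩ := inv_regular (ord_sub_const_nonneg h3.1 c) h7
  refine ⟨h9, ?_⟩
  rw [h10, norm_inv, ev_sub_const h3.1]
  exact inv_anti₀ hη h5

/-- if `1/(f-c)` is bounded along `𝓤` then `f` does not tend to `c` -/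
theorem not_tendsto_of_bdd_inv_sub {f : F} (hf : Bdd 𝓤 f) {c : ℂ}
    (hfc : f - algebraMap ℂ F c ≠ 0)
    (hg : Bdd 𝓤 (f - algebraMap ℂ F c)⁻¹) :
    ¬ Tendsto (fun v : Place ℂ F => ev v f) 𝓤 (𝓝 c) := by
  intro hc
  obtain ⟨M, hM⟩ := hf
  obtain ⟨N, hN⟩ := hg
  have hη : 0 < (|N| + 1)⁻¹ := by positivity
  have h2 : ∀ᶠ v in (𝓤 : Filter (Place ℂ F)), ‖ev v f - c‖ < (|N| + 1)⁻¹ := by
    have := hc (Metric.ball_mem_nhds c hη)
    filter_upwards [this] with v hv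
    simpa [dist_eq_norm] using hv
  obtain ⟨v, h3, h4, h5⟩ := (hM.and (hN.and h2)).exists
  have h6 : 0 ≤ v.ord (f - algebraMap ℂ F c) := ord_sub_const_nonneg h3.1 c
  have h7 : v.ord (f - algebraMap ℂ F c) = 0 := by
    have := h4.1
    rw [v.ord_inv] at this
    omega
  have h8 := ev_inv hfc h7
  have h9 := ev_ne_zero_of_ord_eq_zero hfc h7
  rw [ev_sub_const h3.1] at h8 h9
  have h10 : ‖(ev v f - c)⁻¹‖ ≤ N := h8 ▸ h4.2
  rw [norm_inv] at h10
  have h11 : 0 < ‖ev v f - c‖ := norm_pos_iff.mpr h9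
  have h12 : (|N| + 1) < ‖ev v f - c‖⁻¹ := by
    rw [lt_inv_comm₀ (by positivity) h11]
    exact h5
  have := le_abs_self N
  linarith

variable (𝓤) in
/-- the valuation subring of the functions bounded along `𝓤` -/
def bddSubring : ValuationSubring F where
  carrier := {f | Bdd 𝓤 f}
  mul_mem' := fun ha hb => Bdd.mul ha hb
  one_mem' := by simpa using bdd_const (F := F) (𝓤 := 𝓤) 1
  add_mem' := fun ha hb => Bdd.add ha hb
  zero_mem' := by simpa using bdd_const (F := F) (𝓤 := 𝓤) 0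
  neg_mem' := fun ha => Bdd.neg ha
  mem_or_inv_mem' := bdd_or_bdd_inv

theorem mem_bddSubring {f : F} : f ∈ bddSubring 𝓤 ↔ Bdd 𝓤 f := Iff.rfl

theorem bddSubring_ne_top [NonConst ℂ F] : bddSubring 𝓤 ≠ (⊤ : ValuationSubring F) := by
  intro htop
  obtain ⟨x, hx⟩ := NonConst.out (K := ℂ) (F := F)
  have hall : ∀ f : F, Bdd 𝓤 f := fun f => by
    rw [← mem_bddSubring, htop]; exact ValuationSubring.mem_top f
  obtain ⟨c, hc⟩ := (hall x).exists_tendsto
  have hxc : x - algebraMap ℂ F c ≠ 0 := by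
    intro h
    apply hx
    rw [sub_eq_zero.mp h]
    exact isAlgebraic_algebraMap c
  exact not_tendsto_of_bdd_inv_sub (hall x) hxc (hall _) hc

variable (𝓤) in
/-- the limit place of an ultrafilter -/
def limPlace [NonConst ℂ F] : Place ℂ F :=
  H.placeOfValuationSubring (bddSubring 𝓤) (fun a => bdd_const a) bddSubring_ne_top

theorem le_nhds_limPlace [NonConst ℂ F] : (𝓤 : Filter (Place ℂ F)) ≤ 𝓝 (limPlace 𝓤) := by
  rw [show 𝓝 (limPlace 𝓤) = _ from TopologicalSpace.nhds_generateFrom]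
  refine le_iInf₂ fun s hs => ?_
  obtain ⟨hws, f, W, hW, rfl⟩ := hs
  rw [le_principal_iff]
  obtain ⟨hreg, hval⟩ := hws
  have hf : Bdd 𝓤 f := mem_of_ord_nonneg (limPlace 𝓤) hreg
  obtain ⟨c', hc'⟩ := hf.exists_tendsto
  have hcc : c' = ev (limPlace 𝓤) f := by
    by_contra hne
    have h1 := bdd_inv_sub_of_tendsto hf hc' hne
    have h2 : 0 ≤ (limPlace 𝓤).ord (f - algebraMap ℂ F (ev (limPlace 𝓤) f))⁻¹ :=
      ord_nonneg_of_mem (limPlace 𝓤) h1
    rw [Place.ord_inv] at h2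
    rcases isVal_ev hreg with h3 | h3
    · -- `f` is constant
      apply hne
      have h4 : (fun v : Place ℂ F => ev v f) = fun _ => ev (limPlace 𝓤) f := by
        funext v
        conv_lhs => rw [h3]
        rw [ev_algebraMap]
      rw [h4] at hc'
      exact tendsto_nhds_unique hc' tendsto_const_nhds
    · omega
  obtain ⟨M, hM⟩ := hf
  rw [hcc] at hc'
  have h5 := hc' (hW.mem_nhds hval)
  filter_upwards [hM, h5] with v h6 h7
  exact ⟨h6.1, h7⟩

/-- **The set of places of a function field over `ℂ` is compact in the weak topology.** -/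
theorem compactSpace_place [NonConst ℂ F] : CompactSpace (Place ℂ F) := by
  refine ⟨isCompact_iff_ultrafilter_le_nhds.mpr fun 𝓤 _ => ?_⟩
  exact ⟨limPlace 𝓤, Set.mem_univ _, le_nhds_limPlace⟩

end Compact

end Fermat.Agent.S27.E
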